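/-
GATE-S (S33) / node [TOP-HGEOM] (helper60): **the binder `hgeom` of `GS/Alg/S33OfGeom` from (CE) for
the single group `M⁰_1`**, and the frozen conclusion of S33 from that one binder.

For `p ∥ N`, `P ∣ p` a place of `ℚ̄`, helper30's `M0mod N P h m ≤ J₀(N)(ℚ̄)[m]` (`GS/F/Modular`,
classes with an admissible Kummer generator at the two Gauss valuations) is

* stable under `D_P`                                   (`smul_mem_M0mod`),
* contains `(σ - 1) J₀(N)[m]` for `σ ∈ I_P`            (`smul_sub_mem_M0mod`, (U)),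
* `p • M⁰_{p^(k+1)} ⊆ M⁰_{p^k}`, `M⁰_{p^(k+1)}[p] ⊆ M⁰_p` (`nsmul_mem_M0mod`, `M0mod_eq_inf`),

so helper93's dévissage `GS/Old/CeDevissage.hasCE_family` reduces (CE) for every `M⁰_{p^k}` to (CE)
for `M⁰_p`, and the three fields of helper79's `ConnPackage` on `J₀(N)[p^k]` (as the subtype
`Submodule.torsionBy ℤ (JZero N) (p ^ k)` with `GH.Top.torsAct`) follow.

* `hasCE_M0mod_pow`     : `HasCE I_P (σ • ·) M⁰_p ⟹ HasCE I_P (σ • ·) M⁰_{p^k}` for all `k`;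
* `connPackage_of_hasCE`: the package on `J₀(N)[p^k]`;
* `hgeom_of_hasCE`      : the binder `hgeom` of `isOrdinaryAt_of_geom`, verbatim;
* `isOrdinaryAt_of_hasCE` : the frozen conclusion of S33 from the frozen hypotheses + the ONE binder
  `hce : ∀ P ∣ p, HasCE ↑I_P (σ • ·) (M0mod N P ⟨hp, hN.1, hN.2⟩ p)`
  (= the output of `GS/Loc2/HasCE.hasCE_of_charts` at `W := M⁰_1`, `act := (σ • ·)`).
-/
import Fermat.Agent.GS.F.Modular
import Fermat.Agent.GS.Old.CeDevissage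
import Fermat.Agent.GS.Alg.S33OfGeom
import Fermat.Agent.GS.DetCyc

set_option autoImplicit false
set_option linter.unusedSectionVars false

open CuspForm ModularCurve IsLocalRing

namespace Fermat.Agent.GS.Top.HGeom

open Fermat.Agent.GS.Alg.Transfer Fermat.Agent.GS.Old Fermat.Agent.GS.F
open Fermat.Agent.GK.AL AlgebraicCurve

local notation "Qb" => AlgebraicClosure ℚ
local notation "GQ" => (AlgebraicClosure ℚ ≃ₐ[ℚ] AlgebraicClosure ℚ)

variable {p : ℕ} {N : ℕ} [NeZero N]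

/-- the modulus only matters up to equality (the `NeZero` instances are proofs). -/
theorem M0mod_congr (A : ValuationSubring Qb) (h : ExactDvd p N) {m m' : ℕ} (hm : m = m')
    [i : NeZero m] [i' : NeZero m'] : M0mod N A h m = M0mod N A h m' := by
  subst hm
  rfl

/-- the family `k ↦ M⁰_{p^k}`. -/
noncomputable def M0fam (A : ValuationSubring Qb) (h : ExactDvd p N) (k : ℕ) :
    AddSubgroup (JZero N) :=
  @M0mod N _ A p h (p ^ k) ⟨pow_ne_zero k h.prime.ne_zero⟩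

theorem M0fam_zero (A : ValuationSubring Qb) (h : ExactDvd p N) : M0fam A h 0 = ⊥ := by
  have : NeZero (p ^ 0) := ⟨pow_ne_zero 0 h.prime.ne_zero⟩
  rw [eq_bot_iff]
  intro x hx
  have h1 : ((p ^ 0 : ℕ) : ℤ) • x = 0 := smul_eq_zero_of_mem_M0mod (h := h) hx
  rw [pow_zero, Nat.cast_one, one_smul] at h1
  rw [AddSubgroup.mem_bot]
  exact h1

theorem M0fam_one (A : ValuationSubring Qb) (h : ExactDvd p N) :
    M0fam A h 1 = @M0mod N _ A p h p ⟨h.prime.ne_zero⟩ := by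
  have : NeZero (p ^ 1) := ⟨pow_ne_zero 1 h.prime.ne_zero⟩
  have : NeZero p := ⟨h.prime.ne_zero⟩
  exact M0mod_congr A h (pow_one p)

theorem nsmul_mem_M0fam (A : ValuationSubring Qb) (h : ExactDvd p N) (k : ℕ) {w : JZero N}
    (hw : w ∈ M0fam A h (k + 1)) : p • w ∈ M0fam A h k := by
  have i1 : NeZero (p ^ (k + 1)) := ⟨pow_ne_zero _ h.prime.ne_zero⟩
  have i2 : NeZero (p ^ k) := ⟨pow_ne_zero _ h.prime.ne_zero⟩
  have i3 : NeZero (p * p ^ k) := ⟨mul_ne_zero h.prime.ne_zero (pow_ne_zero _ h.prime.ne_zero)⟩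
  have hw' : w ∈ M0mod N A h (p * p ^ k) := by
    have e := M0mod_congr A h (pow_succ' p k)
    have hw2 : w ∈ M0mod N A h (p ^ (k + 1)) := hw
    rw [e] at hw2
    exact hw2
  exact nsmul_mem_M0mod hw'

theorem mem_M0fam_one_of_nsmul_eq_zero (A : ValuationSubring Qb) (h : ExactDvd p N) (k : ℕ)
    {w : JZero N} (hw : w ∈ M0fam A h (k + 1)) (hpw : p • w = 0) : w ∈ M0fam A h 1 := by
  have i1 : NeZero (p ^ (k + 1)) := ⟨pow_ne_zero _ h.prime.ne_zero⟩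
  have i2 : NeZero (p ^ 1) := ⟨pow_ne_zero _ h.prime.ne_zero⟩
  have hdvd : p ^ 1 ∣ p ^ (k + 1) := pow_dvd_pow p (Nat.le_add_left 1 k)
  have e := M0mod_eq_inf (N := N) (A := A) (h := h) hdvd
  show w ∈ M0mod N A h (p ^ 1)
  rw [e]
  refine ⟨hw, ?_⟩
  show w ∈ Pic0.torsion Qb (Fermat.Agent.GJ.KumGroup.FK N) (p ^ 1)
  rw [Pic0.mem_torsion, pow_one, natCast_zsmul]
  exact hpw

/-- **dévissage**: (CE) for `M⁰_p` gives (CE) for every `M⁰_{p^k}`. -/
theorem hasCE_M0fam (A : ValuationSubring Qb) (h : ExactDvd p N)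
    (hce : HasCE (↑(A.inertiaSubgroupIn ℚ) : Set GQ) (fun (σ : GQ) (x : JZero N) => σ • x)
      (@M0mod N _ A p h p ⟨h.prime.ne_zero⟩)) (k : ℕ) :
    HasCE (↑(A.inertiaSubgroupIn ℚ) : Set GQ) (fun (σ : GQ) (x : JZero N) => σ • x)
      (M0fam A h k) := by
  refine hasCE_family (M0fam A h) p (fun g _ x y => smul_add g x y) ?_ (M0fam_zero A h)
    (fun k w hw => nsmul_mem_M0fam A h k hw)
    (fun k w hw hpw => mem_M0fam_one_of_nsmul_eq_zero A h k hw hpw) ?_ k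
  · intro k g hg x hx
    have : NeZero (p ^ k) := ⟨pow_ne_zero _ h.prime.ne_zero⟩
    exact smul_mem_M0mod (h := h)
      (Fermat.Agent.GS.Alg.S33OfGeom.mem_decomposition_of_mem_inertiaIn hg) hx
  · rw [M0fam_one]
    exact hce

/-- **the connected package on `J₀(N)[p^k]`** from (CE) for `M⁰_p`. -/
theorem connPackage_of_hasCE (A : ValuationSubring Qb) (hA : A.LiesOverPrime p)
    (h : ExactDvd p N)
    (hce : HasCE (↑(A.inertiaSubgroupIn ℚ) : Set GQ) (fun (σ : GQ) (x : JZero N) => σ • x)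
      (@M0mod N _ A p h p ⟨h.prime.ne_zero⟩)) (k : ℕ) :
    ∃ W : AddSubgroup ↥(Submodule.torsionBy ℤ (JZero N) ((p : ℤ) ^ k)),
      ConnPackage (↑(A.inertiaSubgroupIn ℚ) : Set GQ) (↑(A.decompositionSubgroup ℚ) : Set GQ)
        (fun (σ : GQ) (x : ↥(Submodule.torsionBy ℤ (JZero N) ((p : ℤ) ^ k))) =>
          Fermat.Agent.GH.Top.torsAct N ((p : ℤ) ^ k) σ x) W := by
  have i0 : NeZero p := ⟨h.prime.ne_zero⟩
  have ik : NeZero (p ^ k) := ⟨pow_ne_zero _ h.prime.ne_zero⟩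
  have hfwd : ∀ σ ∈ (↑(A.decompositionSubgroup ℚ) : Set GQ), ∀ x ∈ M0fam A h k,
      σ • x ∈ M0fam A h k := fun σ hσ x hx => smul_mem_M0mod (h := h) hσ hx
  refine ⟨(M0fam A h k).comap
    (Submodule.torsionBy ℤ (JZero N) ((p : ℤ) ^ k)).subtype.toAddMonoidHom, ?_, ?_, ?_⟩
  · -- `D`-stability, iff form
    intro σ hσ w
    constructor
    · intro hw
      have h1 : σ • (w : JZero N) ∈ M0fam A h k := hw
      have h2 := hfwd σ⁻¹ (inv_mem hσ) _ h1
      rw [inv_smul_smul] at h2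
      exact h2
    · intro hw
      exact hfwd σ hσ _ hw
  · -- (U)
    intro σ hσ u
    show ((Fermat.Agent.GH.Top.torsAct N ((p : ℤ) ^ k) σ u - u :
      ↥(Submodule.torsionBy ℤ (JZero N) ((p : ℤ) ^ k))) : JZero N) ∈ M0fam A h k
    rw [AddSubgroupClass.coe_sub, Fermat.Agent.GH.Top.coe_torsAct]
    exact smul_sub_mem_M0mod_torsionBy (h := h) hA k hσ u.2
  · -- (CE)
    intro N' hN' w hw hwN'
    have hCE := hasCE_M0fam A h hce k
    let N'' : AddSubgroup (JZero N) :=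
      N'.map (Submodule.torsionBy ℤ (JZero N) ((p : ℤ) ^ k)).subtype.toAddMonoidHom
    have hmem : (w : JZero N) ∈ N'' := by
      refine hCE N'' ?_ (w : JZero N) hw ?_
      · rintro σ hσ _ ⟨u, hu, rfl⟩
        exact ⟨_, hN' σ hσ u hu, rfl⟩
      · intro σ hσ
        exact ⟨_, hwN' σ hσ, rfl⟩
    obtain ⟨w', hw', hww'⟩ := hmem
    have : w' = w := Subtype.ext hww'
    rw [← this]
    exact hw'

/-- **the binder `hgeom`** of `GS/Alg/S33OfGeom.isOrdinaryAt_of_geom` from (CE) for `M⁰_p`. -/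
theorem hgeom_of_hasCE (h : ExactDvd p N)
    (hce : ∀ P : ValuationSubring Qb, P.LiesOverPrime p →
      HasCE (↑(P.inertiaSubgroupIn ℚ) : Set GQ) (fun (σ : GQ) (x : JZero N) => σ • x)
        (@M0mod N _ P p h p ⟨h.prime.ne_zero⟩)) :
    ∀ (k : ℕ) (P : ValuationSubring Qb), P.LiesOverPrime p →
      ∃ W : AddSubgroup ↥(Submodule.torsionBy ℤ (JZero N) ((p : ℤ) ^ k)),
        ConnPackage (↑(P.inertiaSubgroupIn ℚ) : Set GQ) (↑(P.decompositionSubgroup ℚ) : Set GQ)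
          (fun (σ : GQ) (x : ↥(Submodule.torsionBy ℤ (JZero N) ((p : ℤ) ^ k))) =>
            Fermat.Agent.GH.Top.torsAct N ((p : ℤ) ^ k) σ x) W :=
  fun k P hP => connPackage_of_hasCE P hP h (hce P hP) k

section Datum

variable {S : Finset ℕ}
  {𝒪 : Type} [CommRing 𝒪] [IsDomain 𝒪] [IsDiscreteValuationRing 𝒪]
  [IsAdicComplete (IsLocalRing.maximalIdeal 𝒪) 𝒪]
  {θ : CuspForm.heckeAlgebra N 2 (↑S : Set ℕ) →+* IsLocalRing.ResidueField 𝒪}
  {T : Type} [CommRing T] [IsLocalRing T] [IsNoetherianRing T]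
  [IsAdicComplete (IsLocalRing.maximalIdeal T) T] [Algebra 𝒪 T] [IsLocalHom (algebraMap 𝒪 T)]
  [Module.Finite 𝒪 T] [Module.Free 𝒪 T]

/-- **S33 from (CE) for `M⁰_p`**: the frozen hypotheses of S33 plus the single geometric binder
"`M⁰_p ≤ J₀(N)[p]` has no `I_P`-trivial subquotient, for every `P ∣ p`". -/
theorem isOrdinaryAt_of_hasCE [Finite (IsLocalRing.ResidueField 𝒪)] [CharZero 𝒪]
    (hp : p.Prime) (hp2 : p ≠ 2) (hp𝒪 : (p : 𝒪) ∈ IsLocalRing.maximalIdeal 𝒪)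
    (hN : p ∣ N ∧ ¬ p ^ 2 ∣ N)
    (hNS : ∀ q : ℕ, q.Prime → q ∣ N → q ∈ S)
    (H : CuspForm.HeckeGaloisRepDatum N (↑S : Set ℕ) 𝒪 θ T)
    (hres : (GaloisRepAdic.ofResidualGaloisRep H.ρ.residual).IsOrdinaryAt p)
    (hce : ∀ P : ValuationSubring Qb, P.LiesOverPrime p →
      HasCE (↑(P.inertiaSubgroupIn ℚ) : Set GQ) (fun (σ : GQ) (x : JZero N) => σ • x)
        (@M0mod N _ P p ⟨hp, hN.1, hN.2⟩ p ⟨hp.ne_zero⟩)) :
    H.ρ.IsOrdinaryAt p := by
  have hpS : p ∈ S := hNS p hp hN.1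
  refine Fermat.Agent.GS.Alg.S33OfGeom.isOrdinaryAt_of_geom hp hp2 hp𝒪 hpS hNS H hres ?_
    (hgeom_of_hasCE ⟨hp, hN.1, hN.2⟩ hce)
  intro P hP
  obtain ⟨σ₀, hσ₀, hu, -, -⟩ :=
    Fermat.Agent.GS.DetCyc.exists_inertia_isUnit_det_sub_one_datum hp hp2 hp𝒪 hpS H P hP
  exact ⟨σ₀, hσ₀, fun hmem => (IsLocalRing.mem_maximalIdeal _).1 hmem hu⟩

end Datum

end Fermat.Agent.GS.Top.HGeom
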