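/-
GATE-S (S33) / TOP, THE FRAME PLUG (helper32, GATE-S advisor): everything on main is composed; the
frame-side nodes still in flight (FRAME² generic layer, INST², [KER], ChartSupply², [GAL-I]) enter as
ONE closed Prop `FrameNode p N h`:

  for every place `P ∣ p` of `ℚ̄` there is an abstract disc frame `Φ : DiscData ℚ̄ F_N k Sp 𝒬` with
  `Φ.A = P`, the six FRAME² contracts (`CoordUnique`, `CoordSmall`, `CoordInj`,
  `CoordExists Φ n M⁰_p`, `ChartSupply`, `AddSpec`) and ONE chart on which the coordinates of the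
  classes of `M⁰_p` are `I_P`-equivariant.

* `hasCE_of_frameNode` : `FrameNode p N h ⟹ ∀ P ∣ p, HasCE ↑I_P (σ • ·) (M0mod N P h p)` (= `NU1`);
* `s33_of_frameNode`   : frozen hypotheses of S33 + `FrameNode` ⟹ `H.ρ.IsOrdinaryAt p`
                         (through helper60's `GS/Top/HGeom.isOrdinaryAt_of_hasCE`).

The [F]-side facts (`M⁰_p` is `I_P`-stable, killed by `p`, finite) are discharged here from
helper30's `GS/F/Modular` and helper18's `GH/TorsionLevel`.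
-/
import Mathlib
import Fermat.Agent.GS.Loc2.ChartsDisc
import Fermat.Agent.GS.Top.HGeom
import Fermat.Agent.GH.TorsionLevel

set_option autoImplicit false
set_option linter.unusedSectionVars false
set_option linter.unusedVariables false

noncomputable section

open AlgebraicCurve CuspForm ModularCurve IsLocalRing

namespace Fermat.Agent.GS.Top.FramePlug

open Fermat.Agent.GS.Frame Fermat.Agent.GS.Loc2 Fermat.Agent.GS.Loc2.Disc Fermat.Agent.GS.F
open Fermat.Agent.GS.Old Fermat.Agent.GK.AL Fermat.Agent.GJ.KumGroup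

local notation "Qb" => AlgebraicClosure ℚ
local notation "GQ" => (AlgebraicClosure ℚ ≃ₐ[ℚ] AlgebraicClosure ℚ)

variable (p N : ℕ) [NeZero N]

/-- **The frame-side node of GATE-S**, as one closed proposition. -/
def FrameNode (h : ExactDvd p N) : Prop :=
  haveI : NeZero p := ⟨h.prime.ne_zero⟩
  ∀ P : ValuationSubring Qb, P.LiesOverPrime p →
    ∃ (k Sp 𝒬 : Type) (_ : Field k) (_ : CommRing Sp) (_ : Algebra k Sp)
      (Φ : DiscData Qb (FK N) k Sp 𝒬) (n : ℕ),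
      Φ.A = P ∧ CoordUnique Φ n ∧ CoordSmall Φ n ∧ CoordInj Φ n ∧
      CoordExists Φ n ((M0mod N P h p : AddSubgroup (JZero N)) : Set (JZero N)) ∧
      ChartSupply Φ n ∧ AddSpec Φ n ∧
      ∃ 𝔠₀ : Frame.Chart Φ n, ∀ σ ∈ P.inertiaSubgroupIn ℚ, ∀ x ∈ M0mod N P h p,
        ∀ τ : Fin n → Qb, Frame.IsCoord 𝔠₀ x τ → Frame.IsCoord 𝔠₀ (σ • x) (fun i => σ (τ i))

variable {p N}

/-- `M⁰_p` is finite. -/
theorem finite_M0mod (P : ValuationSubring Qb) (h : ExactDvd p N) :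
    haveI : NeZero p := ⟨h.prime.ne_zero⟩
    Finite ↥(M0mod N P h p) := by
  have : NeZero p := ⟨h.prime.ne_zero⟩
  have hfin : Finite (Submodule.torsionBy ℤ (JZero N) (p : ℤ)) :=
    Fermat.Agent.GH.TorsionLevel.finite_torsionBy N p h.prime.ne_zero
  let j : ↥(M0mod N P h p) → ↥(Submodule.torsionBy ℤ (JZero N) (p : ℤ)) := fun x =>
    ⟨(x : JZero N), (Submodule.mem_torsionBy_iff _ _).2 (smul_eq_zero_of_mem_M0mod x.2)⟩
  refine Finite.of_injective j ?_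
  intro a b hab
  exact Subtype.ext (congrArg (fun z : ↥(Submodule.torsionBy ℤ (JZero N) (p : ℤ)) =>
    (z : JZero N)) hab)

/-- **(NU) at level one from the frame node.** -/
theorem hasCE_of_frameNode (hp2 : p ≠ 2) (h : ExactDvd p N) (hF : FrameNode p N h)
    (P : ValuationSubring Qb) (hP : P.LiesOverPrime p) :
    HasCE (↑(P.inertiaSubgroupIn ℚ) : Set GQ) (fun (σ : GQ) (x : JZero N) => σ • x)
      (@M0mod N _ P p h p ⟨h.prime.ne_zero⟩) := by
  have : NeZero p := ⟨h.prime.ne_zero⟩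
  obtain ⟨k, Sp, 𝒬, i1, i2, i3, Φ, n, hΦA, hun, hsm, hinj, hex, hsup, hadd, 𝔠₀, hgal⟩ := hF P hP
  subst hΦA
  have := finite_M0mod Φ.A h
  have hodd : Odd p := h.prime.odd_of_ne_two hp2
  have hst : ∀ σ ∈ (↑(Φ.A.inertiaSubgroupIn ℚ) : Set GQ), ∀ x ∈ M0mod N Φ.A h p,
      (fun (σ : GQ) (x : JZero N) => σ • x) σ x ∈ M0mod N Φ.A h p := fun σ hσ x hx =>
    smul_mem_M0mod (Fermat.Agent.GS.Alg.S33OfGeom.mem_decomposition_of_mem_inertiaIn hσ) hx
  refine hasCE_of_discFrame Φ h.prime hP hodd hun hsm hinj (𝒦 := M0mod N Φ.A h p) hex hsup hadd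
    (fun σ _ x y => smul_add σ x y) hst ?_ ?_ (M0mod N Φ.A h p).subtype
    (AddSubgroup.subtype_injective _) (fun x => x.2) 𝔠₀ ?_
  · intro σ hσ x hx
    refine ⟨σ⁻¹ • x, ?_, smul_inv_smul σ x⟩
    exact smul_mem_M0mod (Fermat.Agent.GS.Alg.S33OfGeom.mem_decomposition_of_mem_inertiaIn
      (inv_mem hσ)) hx
  · intro w hw
    have h1 := smul_eq_zero_of_mem_M0mod hw
    rwa [natCast_zsmul] at h1
  · intro σ x τ hτ
    exact hgal σ.1 σ.2 x.1 x.2 τ hτ

section Datum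

variable {S : Finset ℕ}
  {𝒪 : Type} [CommRing 𝒪] [IsDomain 𝒪] [IsDiscreteValuationRing 𝒪]
  [IsAdicComplete (IsLocalRing.maximalIdeal 𝒪) 𝒪]
  {θ : CuspForm.heckeAlgebra N 2 (↑S : Set ℕ) →+* IsLocalRing.ResidueField 𝒪}
  {T : Type} [CommRing T] [IsLocalRing T] [IsNoetherianRing T]
  [IsAdicComplete (IsLocalRing.maximalIdeal T) T] [Algebra 𝒪 T] [IsLocalHom (algebraMap 𝒪 T)]
  [Module.Finite 𝒪 T] [Module.Free 𝒪 T]

/-- **S33 from the frame node.** -/
theorem s33_of_frameNode [Finite (IsLocalRing.ResidueField 𝒪)] [CharZero 𝒪]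
    (hp : p.Prime) (hp2 : p ≠ 2) (hp𝒪 : (p : 𝒪) ∈ IsLocalRing.maximalIdeal 𝒪)
    (hN : p ∣ N ∧ ¬ p ^ 2 ∣ N)
    (hNS : ∀ q : ℕ, q.Prime → q ∣ N → q ∈ S)
    (H : CuspForm.HeckeGaloisRepDatum N (↑S : Set ℕ) 𝒪 θ T)
    (hres : (GaloisRepAdic.ofResidualGaloisRep H.ρ.residual).IsOrdinaryAt p)
    (hF : FrameNode p N ⟨hp, hN.1, hN.2⟩) :
    H.ρ.IsOrdinaryAt p :=
  Fermat.Agent.GS.Top.HGeom.isOrdinaryAt_of_hasCE hp hp2 hp𝒪 hN hNS H hres
    (fun P hP => hasCE_of_frameNode hp2 ⟨hp, hN.1, hN.2⟩ hF P hP)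

end Datum

end Fermat.Agent.GS.Top.FramePlug
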