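/-
GATE-S (S33) / A4, THE FINAL ASSEMBLY (helper60, gate lead): **`FrameNode p N h` for every level `N`
with `p ∥ N`, `p` odd (`p = 3 → 2 ∣ N`)** — the only binder of `GS/Top/Aux3.s33_of_frameNodes`.

Composition of

* helper86 `GS/Nodal/Inst/Level.exists_nodalHyp_of_exactDvd` (the modular nodal frame) and
  helper5 `GS/Nodal/Inst/NonemptyNodes.nonempty_of_frameFacts`;
* helper87 `GS/Nodal/SupplyPin.pin_target` (A1: chart supply and the four FRAME² contracts of the
  pinned disc frame `pinData H`), with `harch := GH/Inst/Arch.harch`;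
* helper30 `GS/F/A2Plug.coordExists_M0mod_nodal` (A2: `[KER]` for `M⁰_p`);
* helper18 `GS/Gal/FixedChart2.exists_equivariant_chart` (A3: `[GAL-I]`).
-/
import Mathlib
import Fermat.Agent.GS.Top.FramePlug
import Fermat.Agent.GS.Nodal.Inst.Level
import Fermat.Agent.GS.Nodal.SupplyPin
import Fermat.Agent.GS.F.A2Plug
import Fermat.Agent.GS.Gal.FixedChart2
import Fermat.Agent.GH.Inst.Arch

set_option autoImplicit false
set_option linter.unusedSectionVars false
set_option linter.unusedVariables false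
set_option linter.style.haveILetI false

noncomputable section

open AlgebraicCurve ModularCurve IsLocalRing

namespace Fermat.Agent.GS.Top.FrameNodeAll

open Fermat.Agent.S24 Fermat.Agent.S24_helper62 Fermat.Agent.RRh45 Fermat.Agent.RR
open Fermat.Agent.GJ.J1 Fermat.Agent.GJ.J1.Val Fermat.Agent.GJ.J1.InstGen
open Fermat.Agent.GK.AL Fermat.Agent.GK.MultiVal
open Fermat.Agent.GK.CuspSep Fermat.Agent.GK.SymChart Fermat.Agent.GK.SymDegree
open Fermat.Agent.GS.Nodal.LSR2 Fermat.Agent.GS.Nodal.Inst Fermat.Agent.GS.Nodal.SupplyPin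
open Fermat.Agent.GS.Nodal.DiscFacts2
open Fermat.Agent.GS.Frame Fermat.Agent.GS.Top.FramePlug

attribute [local instance] finiteResidues_FN hasPrincipalDivisors_FN nonempty_place_FN
  isAlgClosed_res finiteResidues_Fres hasPrincipalDivisors_Fres nonempty_place_Fres

/-- the residue function field of the modular nodal frame has infinitely many places. -/
theorem infinite_place_Fres (N : ℕ) [NeZero N] (A : ValuationSubring Kbar) :
    Infinite (Place (ResidueField A) (FresBar N A)) := by
  haveI := isGen_tauF N A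
  haveI : Infinite (ResidueField A) := IsAlgClosed.instInfinite
  refine Fermat.Agent.GH.G6.infinite_place
    (Fermat.Agent.GK.GenusFF.finrank_L_zero_eq_one (tauF N A)) (x := tauF N A) ?_
  rintro ⟨a, ha⟩
  exact transcendental_tauF N A (ha ▸ isAlgebraic_algebraMap a)

/-- **A4: the frame node at every level.** -/
theorem frameNode_all (p N : ℕ) [NeZero N] (h : ExactDvd p N) (hp2 : p ≠ 2)
    (hside : p = 3 → 2 ∣ N) : FrameNode p N h := by
  haveI : NeZero p := ⟨h.prime.ne_zero⟩
  intro A hA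
  obtain ⟨ι, hι, P, Q, c, n₀, FF, H⟩ :=
    exists_nodalHyp_of_exactDvd N p A h hA (fun e => absurd e hp2) hside
  haveI : Nonempty ι := nonempty_of_frameFacts N A h hA FF
  haveI : Infinite (ResidueField A) := IsAlgClosed.instInfinite
  haveI : Infinite (Place (ResidueField A) (FresBar N A)) := infinite_place_Fres N A
  have hg : 0 ≤ genusRR Kbar (FN N) := by
    have h1 := genusRR_eq_of_frameFacts N A h hA FF
    have h2 : 0 < Fintype.card ι := Fintype.card_pos
    have h3 : (0 : ℤ) < (Fintype.card ι : ℤ) := by exact_mod_cast h2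
    have h4 : (0 : ℤ) ≤ (genusFF (ResidueField A) (FresBar N A) : ℤ) := Int.natCast_nonneg _
    linarith
  obtain ⟨n, hn⟩ : ∃ n : ℕ, (n : ℤ) = genusRR Kbar (FN N) :=
    ⟨(genusRR Kbar (FN N)).toNat, Int.toNat_of_nonneg hg⟩
  obtain ⟨-, hsup, hadd, hun, hsm, hinj⟩ :=
    pin_target H FF.injP FF.injQ (Fermat.Agent.GH.Inst.harch A h.prime hA) n hn
  obtain ⟨𝔠₀, h𝔠⟩ := Fermat.Agent.GS.Gal.FixedChart2.exists_equivariant_chart N A h hA H
    (ff2_pin H) (fun _ hq => hq.1) (fun _ hq => hq.1) hsup
  exact ⟨ResidueField A, FresBar N A × FresBar N A, _, _, _, _, pinData H, n, rfl, hun, hsm, hinj,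
    Fermat.Agent.GS.F.A2Plug.coordExists_M0mod_nodal h hA H (ff2_pin H) hn FF.degP FF.degQ,
    hsup, hadd, 𝔠₀, fun σ hσ x _ τ hτ => h𝔠 σ hσ x τ hτ⟩

end Fermat.Agent.GS.Top.FrameNodeAll
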