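/-
GATE-S (S33) / node [AUX3] (helper30): **the auxiliary level at `p = 3`**.

Every nodal-frame instance on main (`GS/Nodal/Inst`, `GK/SS` fibre facts) carries the tame-chart
side condition `(ℓ = 3 → 2 ∣ N')` (a chart of `X₀(N')` whose reduction is separable at `3` needs a
`2` in the level), while the frozen S33 allows `p = 3` with `N` odd.  As in `GH/Aux23` (S19), the
condition is removed by passing to the auxiliary level `lcm 2 N`:

* `isSubquotPow_of_isSubquot` : helper72's subquotient datum `GH.Aux23.IsSubquot N N' ℓ k v S φ`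
  in the `IsSubquotPow` form of `GH/S32/IsSubquot` (`r = 1`);
* `hgeom_of_dvd` : the binder `hgeom` of `GS/Alg/S33OfGeom.isOrdinaryAt_of_geom` at level `N` from
  the same binder at a level `N'` with `N ∣ N'` and `[F_{N'} : F_N] ∣ p ^ v`
  (`GH.Aux23.isSubquot_of_dvd` + helper79's `ConnPackage.of_isSubquotPow`);
* `exactDvd_lcm_two` : `p ∥ N`, `p` odd `⟹ p ∥ lcm 2 N`;
* `s33_of_frameNodes` : the frozen conclusion of S33 from the frozen hypotheses and the frame node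
  `FrameNode p N'' h''` at the levels `N''` with `(p = 3 → 2 ∣ N'')` ONLY.
-/
import Fermat.Agent.GS.Top.FramePlug
import Fermat.Agent.GH.Aux23.Data

set_option autoImplicit false
set_option linter.unusedSectionVars false

open CuspForm ModularCurve IsLocalRing IntermediateField

namespace Fermat.Agent.GS.Top.Aux3

open Fermat.Agent.GS.Alg.Transfer Fermat.Agent.GH.S32 Fermat.Agent.GK.AL Fermat.Agent.GH.Top

local notation "Qb" => AlgebraicClosure ℚ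
local notation "GQ" => (AlgebraicClosure ℚ ≃ₐ[ℚ] AlgebraicClosure ℚ)

/-- helper72's subquotient datum in the `IsSubquotPow` form (`r = 1`). -/
theorem isSubquotPow_of_isSubquot (N N' : ℕ) [NeZero N] [NeZero N'] (ℓ k v : ℕ)
    (S : AddSubgroup (JZero N')) (φ : S →+ JZero N)
    (h : Fermat.Agent.GH.Aux23.IsSubquot N N' ℓ k v S φ) :
    IsSubquotPow
      (fun (σ : GQ) (x : ↥(Submodule.torsionBy ℤ (JZero N') ((ℓ : ℤ) ^ (k + v)))) =>
        torsAct N' ((ℓ : ℤ) ^ (k + v)) σ x)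
      (fun (σ : GQ) (y : ↥(Submodule.torsionBy ℤ (JZero N) ((ℓ : ℤ) ^ k))) =>
        torsAct N ((ℓ : ℤ) ^ k) σ y) := by
  obtain ⟨hS, hstab, hφ, hsurj, heqv⟩ := h
  let ev : (Fin 1 → ↥(Submodule.torsionBy ℤ (JZero N') ((ℓ : ℤ) ^ (k + v)))) →+ JZero N' :=
    { toFun := fun x => ((x 0 : ↥(Submodule.torsionBy ℤ (JZero N') ((ℓ : ℤ) ^ (k + v)))) : JZero N')
      map_zero' := rfl
      map_add' := fun _ _ => rfl }
  let X₁ : AddSubgroup (Fin 1 → ↥(Submodule.torsionBy ℤ (JZero N') ((ℓ : ℤ) ^ (k + v)))) :=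
    S.comap ev
  have htors : ∀ s : S, φ s ∈ Submodule.torsionBy ℤ (JZero N) ((ℓ : ℤ) ^ k) := by
    intro s
    rw [Submodule.mem_torsionBy_iff, ← Nat.cast_pow, natCast_zsmul]
    exact hφ s
  let f : X₁ →+ ↥(Submodule.torsionBy ℤ (JZero N) ((ℓ : ℤ) ^ k)) :=
    { toFun := fun x => ⟨φ ⟨ev x.1, x.2⟩, htors _⟩
      map_zero' := by
        apply Subtype.ext
        have h0 : (⟨ev (0 : X₁).1, (0 : X₁).2⟩ : S) = 0 := Subtype.ext rfl
        show φ ⟨ev (0 : X₁).1, (0 : X₁).2⟩ = 0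
        rw [h0, map_zero]
      map_add' := by
        intro a b
        apply Subtype.ext
        have hab : (⟨ev (a + b).1, (a + b).2⟩ : S) = ⟨ev a.1, a.2⟩ + ⟨ev b.1, b.2⟩ :=
          Subtype.ext rfl
        show φ ⟨ev (a + b).1, (a + b).2⟩ = φ ⟨ev a.1, a.2⟩ + φ ⟨ev b.1, b.2⟩
        rw [hab, map_add] }
  have hst : ∀ g : GQ, ∀ x ∈ X₁,
      (fun i => (fun (σ : GQ) (x : ↥(Submodule.torsionBy ℤ (JZero N') ((ℓ : ℤ) ^ (k + v)))) =>
        torsAct N' ((ℓ : ℤ) ^ (k + v)) σ x) g (x i)) ∈ X₁ := by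
    intro g x hx
    exact hstab g _ hx
  refine ⟨1, X₁, f, ?_, hst, ?_⟩
  · intro y
    obtain ⟨s, hs⟩ := hsurj (y : JZero N) (by
      have hy := (Submodule.mem_torsionBy_iff _ _).1 y.2
      rw [← natCast_zsmul, Nat.cast_pow]
      exact hy)
    have hs' : (s : JZero N') ∈ Submodule.torsionBy ℤ (JZero N') ((ℓ : ℤ) ^ (k + v)) := by
      rw [Submodule.mem_torsionBy_iff, ← Nat.cast_pow, natCast_zsmul]
      exact hS s s.2
    refine ⟨⟨fun _ => ⟨(s : JZero N'), hs'⟩, s.2⟩, ?_⟩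
    apply Subtype.ext
    show φ ⟨(s : JZero N'), s.2⟩ = (y : JZero N)
    exact hs
  · intro g x
    apply Subtype.ext
    exact heqv g ⟨ev x.1, x.2⟩ (hstab g _ x.2)

/-- **the binder `hgeom` descends along a divisibility of levels of `p`-power degree.** -/
theorem hgeom_of_dvd {p : ℕ} (hp : p.Prime) (N N' : ℕ) [NeZero N] [NeZero N'] (h : N ∣ N')
    (v : ℕ)
    (hd : relfinrank (modularFunctionFieldBar N) (modularFunctionFieldBar N') ∣ p ^ v)
    (hgeom : ∀ (k : ℕ) (P : ValuationSubring Qb), P.LiesOverPrime p →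
      ∃ W : AddSubgroup ↥(Submodule.torsionBy ℤ (JZero N') ((p : ℤ) ^ k)),
        ConnPackage (↑(P.inertiaSubgroupIn ℚ) : Set GQ) (↑(P.decompositionSubgroup ℚ) : Set GQ)
          (fun (σ : GQ) (x : ↥(Submodule.torsionBy ℤ (JZero N') ((p : ℤ) ^ k))) =>
            torsAct N' ((p : ℤ) ^ k) σ x) W) :
    ∀ (k : ℕ) (P : ValuationSubring Qb), P.LiesOverPrime p →
      ∃ W : AddSubgroup ↥(Submodule.torsionBy ℤ (JZero N) ((p : ℤ) ^ k)),
        ConnPackage (↑(P.inertiaSubgroupIn ℚ) : Set GQ) (↑(P.decompositionSubgroup ℚ) : Set GQ)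
          (fun (σ : GQ) (x : ↥(Submodule.torsionBy ℤ (JZero N) ((p : ℤ) ^ k))) =>
            torsAct N ((p : ℤ) ^ k) σ x) W := by
  intro k P hP
  obtain ⟨S, φ, hS⟩ := Fermat.Agent.GH.Aux23.isSubquot_of_dvd N N' h p hp.ne_zero v k hd
  obtain ⟨W, hW⟩ := hgeom (k + v) P hP
  refine ConnPackage.of_isSubquotPow (fun σ x y => map_add _ x y)
    (fun σ hσ => Fermat.Agent.GS.Alg.S33OfGeom.mem_decomposition_of_mem_inertiaIn hσ)
    (fun σ hσ => ⟨σ⁻¹, inv_mem hσ, fun w => ?_⟩) hW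
    (isSubquotPow_of_isSubquot N N' p k v S φ hS)
  show torsAct N ((p : ℤ) ^ k) σ⁻¹ (torsAct N ((p : ℤ) ^ k) σ w) = w
  rw [← torsAct_mul, inv_mul_cancel, torsAct_one]

/-- `p ∥ N`, `p` odd `⟹ p ∥ lcm 2 N`. -/
theorem exactDvd_lcm_two {p N : ℕ} (h : ExactDvd p N) (hp2 : p ≠ 2) :
    ExactDvd p (Nat.lcm 2 N) := by
  refine ⟨h.prime, h.dvd.trans (Nat.dvd_lcm_right 2 N), fun h9 => ?_⟩
  have hcop : Nat.Coprime (p ^ 2) 2 := by
    refine Nat.Coprime.pow_left 2 ?_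
    exact (Nat.coprime_primes h.prime Nat.prime_two).2 hp2
  have h1 : p ^ 2 ∣ N * 2 := by
    rw [mul_comm]
    exact h9.trans (Nat.lcm_dvd_mul 2 N)
  exact h.not_sq (hcop.dvd_of_dvd_mul_right h1)

section Datum

variable {p : ℕ} {N : ℕ} [NeZero N] {S : Finset ℕ}
  {𝒪 : Type} [CommRing 𝒪] [IsDomain 𝒪] [IsDiscreteValuationRing 𝒪]
  [IsAdicComplete (IsLocalRing.maximalIdeal 𝒪) 𝒪]
  {θ : CuspForm.heckeAlgebra N 2 (↑S : Set ℕ) →+* IsLocalRing.ResidueField 𝒪}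
  {T : Type} [CommRing T] [IsLocalRing T] [IsNoetherianRing T]
  [IsAdicComplete (IsLocalRing.maximalIdeal T) T] [Algebra 𝒪 T] [IsLocalHom (algebraMap 𝒪 T)]
  [Module.Finite 𝒪 T] [Module.Free 𝒪 T]

/-- **S33 from the frame node at the levels with `(p = 3 → 2 ∣ N'')`.** -/
theorem s33_of_frameNodes [Finite (IsLocalRing.ResidueField 𝒪)] [CharZero 𝒪]
    (hp : p.Prime) (hp2 : p ≠ 2) (hp𝒪 : (p : 𝒪) ∈ IsLocalRing.maximalIdeal 𝒪)
    (hN : p ∣ N ∧ ¬ p ^ 2 ∣ N)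
    (hNS : ∀ q : ℕ, q.Prime → q ∣ N → q ∈ S)
    (H : CuspForm.HeckeGaloisRepDatum N (↑S : Set ℕ) 𝒪 θ T)
    (hres : (GaloisRepAdic.ofResidualGaloisRep H.ρ.residual).IsOrdinaryAt p)
    (hF : ∀ (N'' : ℕ) [NeZero N''] (h'' : ExactDvd p N''), (p = 3 → 2 ∣ N'') →
      Fermat.Agent.GS.Top.FramePlug.FrameNode p N'' h'') :
    H.ρ.IsOrdinaryAt p := by
  by_cases hside : p = 3 → 2 ∣ N
  · exact Fermat.Agent.GS.Top.FramePlug.s33_of_frameNode hp hp2 hp𝒪 hN hNS H hres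
      (hF N ⟨hp, hN.1, hN.2⟩ hside)
  · have hpS : p ∈ S := hNS p hp hN.1
    have hne : NeZero (Nat.lcm 2 N) := ⟨Nat.lcm_ne_zero (by norm_num) (NeZero.ne N)⟩
    have h' : ExactDvd p (Nat.lcm 2 N) := exactDvd_lcm_two ⟨hp, hN.1, hN.2⟩ hp2
    have hg' := Fermat.Agent.GS.Top.HGeom.hgeom_of_hasCE h' (fun P hP =>
      Fermat.Agent.GS.Top.FramePlug.hasCE_of_frameNode hp2 h'
        (hF (Nat.lcm 2 N) h' (fun _ => Nat.dvd_lcm_left 2 N)) P hP)
    have hp3 : p = 3 := by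
      by_contra hne3
      exact hside (fun h3 => absurd h3 hne3)
    have hd : relfinrank (modularFunctionFieldBar N) (modularFunctionFieldBar (Nat.lcm 2 N)) ∣
        p ^ 1 := by
      rcases Fermat.Agent.GJ.J1.Desc.relfinrank_lcm_prime Nat.prime_two N with h | h
      · rw [h]; exact one_dvd _
      · rw [h, hp3]; norm_num
    have hg := hgeom_of_dvd hp N (Nat.lcm 2 N) (Nat.dvd_lcm_right 2 N) 1 hd hg'
    refine Fermat.Agent.GS.Alg.S33OfGeom.isOrdinaryAt_of_geom hp hp2 hp𝒪 hpS hNS H hres ?_ hg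
    intro P hP
    obtain ⟨σ₀, hσ₀, hu, -, -⟩ :=
      Fermat.Agent.GS.DetCyc.exists_inertia_isUnit_det_sub_one_datum hp hp2 hp𝒪 hpS H P hP
    exact ⟨σ₀, hσ₀, fun hmem => (IsLocalRing.mem_maximalIdeal _).1 hmem hu⟩

end Datum

end Fermat.Agent.GS.Top.Aux3
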