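/-
GATE-S (S33) / TOP (helper33): the frame node `FrameNode p N h` of `GS/Top/FramePlug.lean`
(helper32) from a FACTS-level node.

`FactsNode p N h`: for every place `P ∣ p` of `ℚ̄` there is an abstract disc frame
`Φ : DiscData ℚ̄ F_N k Sp 𝒬` with `Φ.A = P`, the ten facts `DiscFacts Φ`, `(n : ℤ) = Φ.g`, a supply
of charts, coordinates for the classes of `M⁰_p` and ONE chart on which these coordinates are
`I_P`-equivariant.

`frameNode_of_factsNode : FactsNode p N h → FrameNode p N h`: the four contracts `AddSpec`,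
`CoordUnique`, `CoordSmall`, `CoordInj` are the FRAME² target `GS/Frame/Gen/Main.frame_target`; its
archimedean binder is `GH/Inst/Arch.harch` (a place of `ℚ̄` over a prime has rank one).

`s33_of_factsNode`: frozen hypotheses of S33 + `FactsNode` ⟹ `H.ρ.IsOrdinaryAt p`.
-/
import Mathlib
import Fermat.Agent.GS.Top.FramePlug
import Fermat.Agent.GS.Frame.Gen.Main
import Fermat.Agent.GH.Inst.Arch

set_option autoImplicit false
set_option linter.unusedSectionVars false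
set_option linter.unusedVariables false

noncomputable section

open AlgebraicCurve CuspForm ModularCurve IsLocalRing

namespace Fermat.Agent.GS.Top.FactsPlug

open Fermat.Agent.GS.Frame Fermat.Agent.GS.Loc2 Fermat.Agent.GS.Loc2.Disc Fermat.Agent.GS.F
open Fermat.Agent.GS.Old Fermat.Agent.GK.AL Fermat.Agent.GJ.KumGroup
open Fermat.Agent.GS.Top.FramePlug

local notation "Qb" => AlgebraicClosure ℚ
local notation "GQ" => (AlgebraicClosure ℚ ≃ₐ[ℚ] AlgebraicClosure ℚ)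

variable (p N : ℕ) [NeZero N]

/-- **The frame-side node of GATE-S at the level of the facts of the frame.** -/
def FactsNode (h : ExactDvd p N) : Prop :=
  haveI : NeZero p := ⟨h.prime.ne_zero⟩
  ∀ P : ValuationSubring Qb, P.LiesOverPrime p →
    ∃ (k Sp 𝒬 : Type) (_ : Field k) (_ : CommRing Sp) (_ : Algebra k Sp)
      (Φ : DiscData Qb (FK N) k Sp 𝒬) (n : ℕ),
      Φ.A = P ∧ DiscFacts Φ ∧ (n : ℤ) = Φ.g ∧ ChartSupply Φ n ∧
      CoordExists Φ n ((M0mod N P h p : AddSubgroup (JZero N)) : Set (JZero N)) ∧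
      ∃ 𝔠₀ : Frame.Chart Φ n, ∀ σ ∈ P.inertiaSubgroupIn ℚ, ∀ x ∈ M0mod N P h p,
        ∀ τ : Fin n → Qb, Frame.IsCoord 𝔠₀ x τ → Frame.IsCoord 𝔠₀ (σ • x) (fun i => σ (τ i))

variable {p N}

/-- **the frame node from the facts node**: the FRAME² target theorem plus the archimedean
property of a place of `ℚ̄` over `p`. -/
theorem frameNode_of_factsNode (h : ExactDvd p N) (hF : FactsNode p N h) : FrameNode p N h := by
  have : NeZero p := ⟨h.prime.ne_zero⟩
  intro P hP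
  obtain ⟨k, Sp, 𝒬, i1, i2, i3, Φ, n, hΦA, hfacts, hn, hsup, hex, 𝔠₀, hgal⟩ := hF P hP
  have harch : ∀ x y : Qb, Φ.A.valuation x < 1 → y ≠ 0 →
      ∃ m : ℕ, Φ.A.valuation x ^ m ≤ Φ.A.valuation y := by
    rw [hΦA]
    exact Fermat.Agent.GH.Inst.harch P h.prime hP
  obtain ⟨hadd, hun, hsm, hinj⟩ := Fermat.Agent.GS.Frame.Asm.frame_target hfacts hn harch hsup
  exact ⟨k, Sp, 𝒬, i1, i2, i3, Φ, n, hΦA, hun, hsm, hinj, hex, hsup, hadd, 𝔠₀, hgal⟩

section Datum

variable {S : Finset ℕ}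
  {𝒪 : Type} [CommRing 𝒪] [IsDomain 𝒪] [IsDiscreteValuationRing 𝒪]
  [IsAdicComplete (IsLocalRing.maximalIdeal 𝒪) 𝒪]
  {θ : CuspForm.heckeAlgebra N 2 (↑S : Set ℕ) →+* IsLocalRing.ResidueField 𝒪}
  {T : Type} [CommRing T] [IsLocalRing T] [IsNoetherianRing T]
  [IsAdicComplete (IsLocalRing.maximalIdeal T) T] [Algebra 𝒪 T] [IsLocalHom (algebraMap 𝒪 T)]
  [Module.Finite 𝒪 T] [Module.Free 𝒪 T]

/-- **S33 from the facts node.** -/
theorem s33_of_factsNode [Finite (IsLocalRing.ResidueField 𝒪)] [CharZero 𝒪]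
    (hp : p.Prime) (hp2 : p ≠ 2) (hp𝒪 : (p : 𝒪) ∈ IsLocalRing.maximalIdeal 𝒪)
    (hN : p ∣ N ∧ ¬ p ^ 2 ∣ N)
    (hNS : ∀ q : ℕ, q.Prime → q ∣ N → q ∈ S)
    (H : CuspForm.HeckeGaloisRepDatum N (↑S : Set ℕ) 𝒪 θ T)
    (hres : (GaloisRepAdic.ofResidualGaloisRep H.ρ.residual).IsOrdinaryAt p)
    (hF : FactsNode p N ⟨hp, hN.1, hN.2⟩) :
    H.ρ.IsOrdinaryAt p :=
  s33_of_frameNode hp hp2 hp𝒪 hN hNS H hres (frameNode_of_factsNode ⟨hp, hN.1, hN.2⟩ hF)

end Datum

end Fermat.Agent.GS.Top.FactsPlug
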