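/-
GATE-S (S33) / A4 seam (helper30): **level transport** `N = N' * p`.

helper86's nodal frame (`GS/Nodal/Inst/Modular.exists_nodalHyp_mul`) lives at the levels `N' * ℓ` with
`¬ ℓ ∣ N'`; the frame node `FramePlug.FrameNode p N h` at an arbitrary level `N` with `p ∥ N`.

* `exactDvd_mul_iff`  : `ExactDvd p (N' * p) → ¬ p ∣ N'`;
* `frameNode_of_mul`  : `FrameNode` at all levels `N' * p` (`¬ p ∣ N'`, `p = 3 → 2 ∣ N'`) gives
  `FrameNode p N h` for every `N` with `p ∥ N` and `(p = 3 → 2 ∣ N)`;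
* `frameNodes_of_mul` : the binder `hF` of `Aux3.s33_of_frameNodes`, verbatim.
-/
import Fermat.Agent.GS.Top.FramePlug

set_option autoImplicit false
set_option linter.unusedSectionVars false

namespace Fermat.Agent.GS.Top.LevelMul

open Fermat.Agent.GK.AL Fermat.Agent.GS.Top.FramePlug

/-- `p ∥ N' p ⟹ p ∤ N'`. -/
theorem not_dvd_of_exactDvd_mul {p N' : ℕ} (h : ExactDvd p (N' * p)) : ¬ p ∣ N' := by
  intro hd
  refine h.not_sq ?_
  rw [pow_two]
  exact Nat.mul_dvd_mul hd (dvd_refl p)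

/-- **level transport**: the frame node at the levels `N' * p` gives the frame node at every level
`N` with `p ∥ N`. -/
theorem frameNode_of_mul {p : ℕ}
    (hmul : ∀ (N' : ℕ) [NeZero N'] [NeZero (N' * p)] (h' : ExactDvd p (N' * p)),
      ¬ p ∣ N' → (p = 3 → 2 ∣ N') → FrameNode p (N' * p) h')
    {N : ℕ} [hN : NeZero N] (h : ExactDvd p N) (h3 : p = 3 → 2 ∣ N) : FrameNode p N h := by
  obtain ⟨N', hN'⟩ := h.dvd
  have hNN : N = N' * p := by rw [hN', mul_comm]
  subst hNN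
  have hne' : NeZero N' := ⟨fun h0 => hN.out (by rw [h0, zero_mul])⟩
  refine hmul N' h (not_dvd_of_exactDvd_mul h) ?_
  intro hp3
  have h2 : 2 ∣ N' * p := h3 hp3
  have hcop : Nat.Coprime 2 p := by rw [hp3]; decide
  exact hcop.dvd_of_dvd_mul_right h2

/-- the binder `hF` of `GS/Top/Aux3.s33_of_frameNodes`. -/
theorem frameNodes_of_mul {p : ℕ}
    (hmul : ∀ (N' : ℕ) [NeZero N'] [NeZero (N' * p)] (h' : ExactDvd p (N' * p)),
      ¬ p ∣ N' → (p = 3 → 2 ∣ N') → FrameNode p (N' * p) h') :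
    ∀ (N'' : ℕ) [NeZero N''] (h'' : ExactDvd p N''), (p = 3 → 2 ∣ N'') → FrameNode p N'' h'' :=
  fun _ _ h'' h3 => frameNode_of_mul hmul h'' h3

end Fermat.Agent.GS.Top.LevelMul
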